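import Fermat.Prelude.Def_AlgebraicCurve_BaseChangeGalois
import Fermat.Agent.S24.FF.PlaceBasic
import Mathlib.GroupTheory.QuotientGroup.Basic
import Mathlib.Algebra.Module.ZMod

/-!
# S48 / B1 : the Kummer module of an arbitrary function field `F / K`

Generic version of `ES.Dm`, `ES.Pw`, `ES.Kum` (which are the case `F = FF N`, `K = ℚ̄`).

* `Dm K F m : Subgroup Fˣ`  : functions all of whose orders are divisible by `m`
* `Pw F m   : Subgroup Fˣ`  : `m`-th powers
* `Kum K F m`               : `Dm / Pw`, written additively (`= Pic⁰(F)[m]` if `K` is alg. closed)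
* `Kum.map φ hD`            : the endomorphism induced by `φ : Fˣ →* Fˣ` preserving `Dm`
* `Kum.semi g`              : the action of a semilinear automorphism `g : SemilinearAut K F`
-/

set_option autoImplicit false

open AlgebraicCurve

namespace Fermat.Agent.S48.B1

noncomputable section

variable (K F : Type*) [Field K] [Field F] [Algebra K F]

/-- The group of nonzero functions all of whose orders are divisible by `m`. -/
def Dm (m : ℕ) : Subgroup Fˣ where
  carrier := {f | ∀ P : Place K F, (m : ℤ) ∣ P.ord (f : F)}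
  one_mem' := fun P => by simp
  mul_mem' := fun {f g} hf hg P => by
    rw [Units.val_mul, P.ord_mul f.ne_zero g.ne_zero]
    exact dvd_add (hf P) (hg P)
  inv_mem' := fun {f} hf P => by
    rw [Units.val_inv_eq_inv_val, P.ord_inv]
    exact (dvd_neg).mpr (hf P)

variable {K F} in
theorem mem_Dm {m : ℕ} {f : Fˣ} :
    f ∈ Dm K F m ↔ ∀ P : Place K F, (m : ℤ) ∣ P.ord (f : F) := Iff.rfl

/-- The subgroup of `m`-th powers in `Fˣ`. -/
def Pw (m : ℕ) : Subgroup Fˣ := (powMonoidHom m : Fˣ →* Fˣ).range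

variable {F} in
theorem mem_Pw {m : ℕ} {f : Fˣ} : f ∈ Pw F m ↔ ∃ h : Fˣ, h ^ m = f := Iff.rfl

theorem Pw_le_Dm (m : ℕ) : Pw F m ≤ Dm K F m := by
  rintro _ ⟨h, rfl⟩ P
  have : ((powMonoidHom m : Fˣ →* Fˣ) h : F) = (h : F) ^ (m : ℤ) := by
    simp
  rw [this, P.ord_zpow]
  exact dvd_mul_right _ _

/-- The Kummer module: `{f : m ∣ div f} / (m-th powers)`, written additively. -/
def Kum (m : ℕ) : Type _ := Additive (Dm K F m ⧸ (Pw F m).subgroupOf (Dm K F m))

instance Kum.instAddCommGroup (m : ℕ) : AddCommGroup (Kum K F m) :=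
  inferInstanceAs (AddCommGroup (Additive (Dm K F m ⧸ (Pw F m).subgroupOf (Dm K F m))))

variable {K F} {m : ℕ}

/-- The class of `f ∈ Dm K F m` in `Kum K F m`. -/
def Kum.mk (f : Dm K F m) : Kum K F m :=
  Additive.ofMul (QuotientGroup.mk f)

theorem Kum.mk_surjective : Function.Surjective (Kum.mk (K := K) (F := F) (m := m)) := by
  intro x
  obtain ⟨f, hf⟩ := QuotientGroup.mk_surjective (Additive.toMul x)
  exact ⟨f, by rw [Kum.mk, hf]; rfl⟩

theorem Kum.mk_mul (f g : Dm K F m) : Kum.mk (f * g) = Kum.mk f + Kum.mk g := rfl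

theorem Kum.mk_one : Kum.mk (1 : Dm K F m) = 0 := rfl

theorem Kum.mk_inv (f : Dm K F m) : Kum.mk f⁻¹ = - Kum.mk f := rfl

theorem Kum.mk_pow (f : Dm K F m) (n : ℕ) : Kum.mk (f ^ n) = n • Kum.mk f := rfl

theorem Kum.mk_eq_zero_iff (f : Dm K F m) :
    Kum.mk f = 0 ↔ ∃ h : Fˣ, h ^ m = (f : Fˣ) := by
  have : Kum.mk f = 0 ↔ (QuotientGroup.mk f : Dm K F m ⧸ (Pw F m).subgroupOf (Dm K F m)) = 1 :=
    Iff.rfl
  rw [this, QuotientGroup.eq_one_iff, Subgroup.mem_subgroupOf]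
  exact mem_Pw

theorem Kum.mk_eq_mk_iff (f g : Dm K F m) :
    Kum.mk f = Kum.mk g ↔ ∃ h : Fˣ, h ^ m = (f : Fˣ) * (g : Fˣ)⁻¹ := by
  rw [← sub_eq_zero, sub_eq_add_neg, ← Kum.mk_inv, ← Kum.mk_mul, Kum.mk_eq_zero_iff]
  rfl

theorem Kum.nsmul_eq_zero (x : Kum K F m) : m • x = 0 := by
  obtain ⟨f, rfl⟩ := Kum.mk_surjective x
  rw [← Kum.mk_pow, Kum.mk_eq_zero_iff]
  exact ⟨f, rfl⟩

instance Kum.instModule : Module (ZMod m) (Kum K F m) :=
  AddCommGroup.zmodModule Kum.nsmul_eq_zero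

/-! ### functoriality -/

/-- An endomorphism of `Fˣ` preserving `Dm K F m` induces an endomorphism of `Kum K F m`. -/
def Kum.map (φ : Fˣ →* Fˣ) (hD : ∀ f ∈ Dm K F m, φ f ∈ Dm K F m) : Kum K F m →+ Kum K F m :=
  MonoidHom.toAdditive (QuotientGroup.map _ _
    ((φ.comp (Dm K F m).subtype).codRestrict (Dm K F m) (fun f => hD f f.2)) (by
      rintro ⟨f, hf⟩ hfP
      rw [Subgroup.mem_subgroupOf] at hfP
      obtain ⟨h, hh⟩ := hfP
      rw [Subgroup.mem_comap, Subgroup.mem_subgroupOf]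
      refine ⟨φ h, ?_⟩
      have hh' : h ^ m = f := hh
      show φ h ^ m = φ f
      rw [← map_pow, hh']))

theorem Kum.map_mk (φ : Fˣ →* Fˣ) (hD : ∀ f ∈ Dm K F m, φ f ∈ Dm K F m) (f : Dm K F m) :
    Kum.map φ hD (Kum.mk f) = Kum.mk ⟨φ f, hD f f.2⟩ := rfl

/-- two maps which agree on `Dm` up to `m`-th powers induce the same endomorphism. -/
theorem Kum.map_congr (φ ψ : Fˣ →* Fˣ) (hφ : ∀ f ∈ Dm K F m, φ f ∈ Dm K F m)
    (hψ : ∀ f ∈ Dm K F m, ψ f ∈ Dm K F m) (h : ∀ f ∈ Dm K F m, φ f = ψ f) (x : Kum K F m) :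
    Kum.map φ hφ x = Kum.map ψ hψ x := by
  obtain ⟨f, rfl⟩ := Kum.mk_surjective x
  rw [Kum.map_mk, Kum.map_mk]
  exact congrArg Kum.mk (Subtype.ext (h f f.2))

theorem Kum.map_map (φ ψ : Fˣ →* Fˣ) (hφ : ∀ f ∈ Dm K F m, φ f ∈ Dm K F m)
    (hψ : ∀ f ∈ Dm K F m, ψ f ∈ Dm K F m) (x : Kum K F m) :
    Kum.map φ hφ (Kum.map ψ hψ x) = Kum.map (φ.comp ψ) (fun f hf => hφ _ (hψ f hf)) x := by
  obtain ⟨f, rfl⟩ := Kum.mk_surjective x
  rfl

/-! ### semilinear automorphisms -/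

/-- The action of a semilinear automorphism on units. -/
def semiU (g : SemilinearAut K F) : Fˣ →* Fˣ :=
  Units.map ((SemilinearAut.toRingAut g : F ≃+* F) : F →* F)

@[simp]
theorem coe_semiU (g : SemilinearAut K F) (f : Fˣ) :
    ((semiU g f : Fˣ) : F) = SemilinearAut.toRingAut g (f : F) := rfl

theorem semiU_mem_Dm (g : SemilinearAut K F) {f : Fˣ} (hf : f ∈ Dm K F m) :
    semiU g f ∈ Dm K F m := by
  intro P
  have h := SemilinearAut.ord_smul g (g⁻¹ • P) (f : F)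
  rw [smul_inv_smul] at h
  rw [coe_semiU]
  rw [SemilinearAut.smul_def] at h
  rw [h]
  exact hf _

/-- The action of a semilinear automorphism of `F / K` on the Kummer module. -/
def Kum.semi (g : SemilinearAut K F) : Kum K F m →+ Kum K F m :=
  Kum.map (semiU g) (fun _ hf => semiU_mem_Dm g hf)

theorem Kum.semi_mk (g : SemilinearAut K F) (f : Dm K F m) :
    Kum.semi g (Kum.mk f) = Kum.mk ⟨semiU g f, semiU_mem_Dm g f.2⟩ := rfl

theorem Kum.semi_one (x : Kum K F m) : Kum.semi (1 : SemilinearAut K F) x = x := by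
  obtain ⟨f, rfl⟩ := Kum.mk_surjective x
  rw [Kum.semi_mk]
  exact congrArg Kum.mk (Subtype.ext (Units.ext rfl))

theorem Kum.semi_mul (g h : SemilinearAut K F) (x : Kum K F m) :
    Kum.semi (g * h) x = Kum.semi g (Kum.semi h x) := by
  obtain ⟨f, rfl⟩ := Kum.mk_surjective x
  rw [Kum.semi_mk, Kum.semi_mk, Kum.semi_mk]
  exact congrArg Kum.mk (Subtype.ext (Units.ext rfl))

/-- The action of `SemilinearAut K F` on the Kummer module, as `ℤ`-linear maps. -/
def Kum.semiRep : SemilinearAut K F →* Module.End ℤ (Kum K F m) where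
  toFun g := (Kum.semi g).toIntLinearMap
  map_one' := LinearMap.ext fun x => Kum.semi_one x
  map_mul' g h := LinearMap.ext fun x => Kum.semi_mul g h x

theorem Kum.semiRep_apply (g : SemilinearAut K F) (x : Kum K F m) :
    Kum.semiRep g x = Kum.semi g x := rfl

/-- nonzero constants lie in `Dm`. -/
theorem algebraMap_mem_Dm (c : K) (hc : algebraMap K F c ≠ 0) :
    Units.mk0 (algebraMap K F c) hc ∈ Dm K F m := by
  intro P
  rw [Units.val_mk0, Fermat.Agent.S24.FF.ord_algebraMap]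
  exact dvd_zero _

end

end Fermat.Agent.S48.B1
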