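import Fermat.Agent.S48.B1.Field
import Fermat.Agent.ES.D.Defs

/-!
# S48 / B1 : diamond and Hecke operators on the Kummer module of a `QField`

`H : HeckeData Q M` = diamond operators `⟨d⟩ : E ≃ₐ[ℚ̄] E`, `d ∈ (ℤ/M)ˣ`, commuting with `G_ℚ`, such that for `p ∤ M`
`T_p h := (⟨p⟩ h)(q^p) * ∏_{z^p = 1} h(z q^{1/p})` lies in `E`, and `⟨d⟩ T_p = T_p ⟨d⟩`.

* `hecke2 p x h = x(q^p) * ∏_{z^p=1} h(z q^{1/p})` (formal; `T_p h = hecke2 p (⟨p⟩ h) h`)
* `H.heckeF p : Q.F →* Q.F`, `H.heckeU p`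
* `H.PreservesDm m`  : `T_p` preserves `m ∣ div`  (input from An1)
* `galKum`, `diaKum`, `heckeKum` on `Kum Qb Q.F m` and their formal commutation relations
* `Crux1 Q p m`      : the statement of CRUX for the field `E` (input from C1)
-/

set_option autoImplicit false

open AlgebraicCurve ModularCurve Fermat.Agent.ES

namespace Fermat.Agent.S48.B1

noncomputable section

instance instNeZeroGoodPrime {M : ℕ} (p : D.GoodPrime M) : NeZero p.1 := ⟨p.2.1.ne_zero⟩

/-- the class of a good prime in `(ℤ/M)ˣ`. -/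
def gpUnit {M : ℕ} (p : D.GoodPrime M) : (ZMod M)ˣ :=
  ZMod.unitOfCoprime p.1 ((Nat.Prime.coprime_iff_not_dvd p.2.1).mpr p.2.2)

@[simp]
theorem coe_gpUnit {M : ℕ} (p : D.GoodPrime M) : ((gpUnit p : (ZMod M)ˣ) : ZMod M) = (p.1 : ZMod M) :=
  rfl

/-! ### the formal operator -/

section Formal

variable {R S : Type*} [CommRing R] [IsDomain R] [CommRing S] [IsDomain S]

/-- `hecke2 p x h = x(q^p) * ∏_{z^p = 1} h(z q^{1/p})`. -/
def hecke2 (p : ℕ) [NeZero p] (x h : LaurentSeries R) : LaurentSeries R :=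
  Vq R p x * normSer p h

theorem hecke2_one (p : ℕ) [NeZero p] : hecke2 p (1 : LaurentSeries R) 1 = 1 := by
  simp [hecke2]

theorem hecke2_mul (p : ℕ) [NeZero p] {ζ : R} (hζ : IsPrimitiveRoot ζ p)
    (x x' h h' : LaurentSeries R) :
    hecke2 p (x * x') (h * h') = hecke2 p x h * hecke2 p x' h' := by
  rw [hecke2, hecke2, hecke2, map_mul, normSer_mul p hζ]
  ring

theorem coeffMap_normSer (f : R →+* S) (p : ℕ) [NeZero p]
    (hf : Function.Bijective (restrictRootsOfUnity f p)) (x : LaurentSeries R) :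
    coeffMap f (normSer p x) = normSer p (coeffMap f x) := by
  rw [normSer, normSer, coeffMap_contract, coeffMap_twistProd f p hf]

theorem coeffMap_hecke2 (f : R →+* S) (p : ℕ) [NeZero p]
    (hf : Function.Bijective (restrictRootsOfUnity f p)) (x h : LaurentSeries R) :
    coeffMap f (hecke2 p x h) = hecke2 p (coeffMap f x) (coeffMap f h) := by
  rw [hecke2, hecke2, map_mul, coeffMap_Vq, coeffMap_normSer f p hf]

end Formal

theorem coeffMap_gal_normSer (σ : GQ) (p : ℕ) [NeZero p] (x : LaurentSeries Qb) :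
    coeffMap (σ : Qb →+* Qb) (normSer p x) = normSer p (coeffMap (σ : Qb →+* Qb) x) :=
  coeffMap_normSer _ p (bijective_restrictRootsOfUnity_equiv σ.toRingEquiv p) x

theorem coeffMap_gal_hecke2 (σ : GQ) (p : ℕ) [NeZero p] (x h : LaurentSeries Qb) :
    coeffMap (σ : Qb →+* Qb) (hecke2 p x h)
      = hecke2 p (coeffMap (σ : Qb →+* Qb) x) (coeffMap (σ : Qb →+* Qb) h) :=
  coeffMap_hecke2 _ p (bijective_restrictRootsOfUnity_equiv σ.toRingEquiv p) x h

theorem coeffMap_subtype_normSer (A : ValuationSubring Qb) (p : ℕ) [NeZero p]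
    (y : LaurentSeries A) :
    coeffMap A.subtype (normSer p y) = normSer p (coeffMap A.subtype y) :=
  coeffMap_normSer _ p (bijective_restrict_subtype A p) y

/-- reduction of `U_p`: `∏_{z^p=1} y(z q^{1/p}) ≡ Frob(y)`. -/
theorem coeffMap_res_normSer {A : ValuationSubring Qb} {p : ℕ} [NeZero p] (hp : p.Prime)
    (hA : A.LiesOverPrime p) (y : LaurentSeries A) :
    coeffMap (resA A) (normSer p y) = coeffMap (frobA hp hA) (coeffMap (resA A) y) := by
  rw [normSer, coeffMap_contract, coeffMap_res_twistProd hp hA, pow_eq_Vq_frobA hp hA, contract_Vq]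

/-! ### the data -/

/-- Diamond operators on a `QField` such that the multiplicative Hecke operators preserve the field. -/
structure HeckeData (Q : QField) (M : ℕ) where
  /-- the diamond operators -/
  dia : (ZMod M)ˣ →* (Q.F ≃ₐ[Qb] Q.F)
  dia_gal : ∀ (d : (ZMod M)ˣ) (σ : GQ) (f : Q.F), dia d (Q.galF σ f) = Q.galF σ (dia d f)
  hecke_mem : ∀ (p : D.GoodPrime M) (f : Q.F),
    hecke2 p.1 ((dia (gpUnit p) f : Q.F) : LaurentSeries Qb) (f : LaurentSeries Qb) ∈ Q.E
  dia_hecke : ∀ (d : (ZMod M)ˣ) (p : D.GoodPrime M) (f : Q.F),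
    ((dia d ⟨_, hecke_mem p f⟩ : Q.F) : LaurentSeries Qb)
      = hecke2 p.1 ((dia (gpUnit p) (dia d f) : Q.F) : LaurentSeries Qb)
          ((dia d f : Q.F) : LaurentSeries Qb)

namespace HeckeData

variable {Q : QField} {M : ℕ} (H : HeckeData Q M)

/-- The multiplicative Hecke operator `T_p` on the field. -/
def heckeF (p : D.GoodPrime M) : Q.F →* Q.F where
  toFun f := ⟨_, H.hecke_mem p f⟩
  map_one' := Subtype.ext (by
    show hecke2 p.1 ((H.dia (gpUnit p) 1 : Q.F) : LaurentSeries Qb) ((1 : Q.F) : LaurentSeries Qb) = 1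
    rw [map_one]
    exact hecke2_one p.1)
  map_mul' f g := Subtype.ext (by
    obtain ⟨ζ, hζ⟩ := exists_primitiveRoot_Qb p.1
    show hecke2 p.1 ((H.dia (gpUnit p) (f * g) : Q.F) : LaurentSeries Qb)
      ((f * g : Q.F) : LaurentSeries Qb) = _
    rw [map_mul]
    exact hecke2_mul p.1 hζ _ _ _ _)

@[simp]
theorem coe_heckeF (p : D.GoodPrime M) (f : Q.F) :
    ((H.heckeF p f : Q.F) : LaurentSeries Qb)
      = hecke2 p.1 ((H.dia (gpUnit p) f : Q.F) : LaurentSeries Qb) (f : LaurentSeries Qb) := rfl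

/-- `T_p` on units. -/
def heckeU (p : D.GoodPrime M) : Q.Fˣ →* Q.Fˣ := Units.map (H.heckeF p)

@[simp]
theorem coe_heckeU (p : D.GoodPrime M) (f : Q.Fˣ) :
    ((H.heckeU p f : Q.Fˣ) : Q.F) = H.heckeF p f := rfl

/-- `T_p` preserves `m ∣ div` (input from the analytic part). -/
def PreservesDm (m : ℕ) : Prop :=
  ∀ (p : D.GoodPrime M) (f : Q.Fˣ), f ∈ Dm Qb Q.F m → H.heckeU p f ∈ Dm Qb Q.F m

theorem galF_heckeF (σ : GQ) (p : D.GoodPrime M) (f : Q.F) :
    Q.galF σ (H.heckeF p f) = H.heckeF p (Q.galF σ f) := by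
  apply Subtype.ext
  rw [QField.coe_galF, coe_heckeF, coe_heckeF, coeffMap_gal_hecke2, H.dia_gal]
  rfl

theorem dia_heckeF (d : (ZMod M)ˣ) (p : D.GoodPrime M) (f : Q.F) :
    H.dia d (H.heckeF p f) = H.heckeF p (H.dia d f) :=
  Subtype.ext (H.dia_hecke d p f)

end HeckeData

/-! ### operators on the Kummer module -/

section Kummer

variable {Q : QField} {M : ℕ} (H : HeckeData Q M) {m : ℕ}

/-- The action of `σ ∈ G_ℚ` on the Kummer module. -/
def galKum (Q : QField) (m : ℕ) (σ : GQ) : Kum Qb Q.F m →+ Kum Qb Q.F m := Kum.semi (Q.galS σ)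

/-- The Galois representation on the Kummer module. -/
def galRepZ (Q : QField) (m : ℕ) : GQ →* Module.End ℤ (Kum Qb Q.F m) := Kum.semiRep.comp Q.galS

theorem galRepZ_apply (σ : GQ) (x : Kum Qb Q.F m) : galRepZ Q m σ x = galKum Q m σ x := rfl

theorem galKum_mul (σ τ : GQ) (x : Kum Qb Q.F m) :
    galKum Q m (σ * τ) x = galKum Q m σ (galKum Q m τ x) := by
  rw [galKum, map_mul, Kum.semi_mul]
  rfl

theorem galKum_one (x : Kum Qb Q.F m) : galKum Q m 1 x = x := by
  rw [galKum, map_one, Kum.semi_one]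

/-- The diamond operator `⟨d⟩` on the Kummer module. -/
def diaKum (m : ℕ) (d : (ZMod M)ˣ) : Kum Qb Q.F m →+ Kum Qb Q.F m :=
  Kum.semi (SemilinearAut.ofAlgAut (H.dia d))

/-- The diamond operators, as a representation of `(ℤ/M)ˣ`. -/
def diaRepZ (m : ℕ) : (ZMod M)ˣ →* Module.End ℤ (Kum Qb Q.F m) :=
  Kum.semiRep.comp (SemilinearAut.ofAlgAut.comp H.dia)

theorem diaRepZ_apply (d : (ZMod M)ˣ) (x : Kum Qb Q.F m) : diaRepZ H m d x = diaKum H m d x := rfl

/-- The Hecke operator `T_p` on the Kummer module. -/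
def heckeKum (hD : H.PreservesDm m) (p : D.GoodPrime M) : Kum Qb Q.F m →+ Kum Qb Q.F m :=
  Kum.map (H.heckeU p) (hD p)

theorem galKum_mk (σ : GQ) (f : Dm Qb Q.F m) :
    galKum Q m σ (Kum.mk f) = Kum.mk ⟨semiU (Q.galS σ) f, semiU_mem_Dm _ f.2⟩ := rfl

theorem diaKum_mk (d : (ZMod M)ˣ) (f : Dm Qb Q.F m) :
    diaKum H m d (Kum.mk f)
      = Kum.mk ⟨semiU (SemilinearAut.ofAlgAut (H.dia d)) f, semiU_mem_Dm _ f.2⟩ := rfl

theorem heckeKum_mk (hD : H.PreservesDm m) (p : D.GoodPrime M) (f : Dm Qb Q.F m) :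
    heckeKum H hD p (Kum.mk f) = Kum.mk ⟨H.heckeU p f, hD p f f.2⟩ := rfl

/-- `T_p` commutes with the Galois action. -/
theorem galKum_heckeKum (hD : H.PreservesDm m) (σ : GQ) (p : D.GoodPrime M) (x : Kum Qb Q.F m) :
    galKum Q m σ (heckeKum H hD p x) = heckeKum H hD p (galKum Q m σ x) := by
  obtain ⟨f, rfl⟩ := Kum.mk_surjective x
  rw [heckeKum_mk, galKum_mk, galKum_mk, heckeKum_mk]
  exact congrArg Kum.mk (Subtype.ext (Units.ext (H.galF_heckeF σ p _)))

/-- `T_p` commutes with the diamond operators. -/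
theorem diaKum_heckeKum (hD : H.PreservesDm m) (d : (ZMod M)ˣ) (p : D.GoodPrime M)
    (x : Kum Qb Q.F m) :
    diaKum H m d (heckeKum H hD p x) = heckeKum H hD p (diaKum H m d x) := by
  obtain ⟨f, rfl⟩ := Kum.mk_surjective x
  rw [heckeKum_mk, diaKum_mk, diaKum_mk, heckeKum_mk]
  exact congrArg Kum.mk (Subtype.ext (Units.ext (H.dia_heckeF d p _)))

/-- the diamond operators commute with the Galois action. -/
theorem diaKum_galKum (d : (ZMod M)ˣ) (σ : GQ) (x : Kum Qb Q.F m) :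
    diaKum H m d (galKum Q m σ x) = galKum Q m σ (diaKum H m d x) := by
  obtain ⟨f, rfl⟩ := Kum.mk_surjective x
  rw [galKum_mk, diaKum_mk, diaKum_mk, galKum_mk]
  exact congrArg Kum.mk (Subtype.ext (Units.ext (H.dia_gal d σ _)))

/-- the diamond operators commute with each other. -/
theorem diaKum_comm (d d' : (ZMod M)ˣ) (x : Kum Qb Q.F m) :
    diaKum H m d (diaKum H m d' x) = diaKum H m d' (diaKum H m d x) := by
  have h := congrArg (fun e => e x) (map_mul (diaRepZ H m) d d')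
  have h' := congrArg (fun e => e x) (map_mul (diaRepZ H m) d' d)
  rw [mul_comm d' d] at h'
  exact h.symm.trans h'

/-- Every class of the Kummer module is fixed by an open subgroup of `G_ℚ`. -/
theorem galKum_smooth (x : Kum Qb Q.F m) :
    ∃ L : IntermediateField ℚ Qb, FiniteDimensional ℚ L ∧
      ∀ σ : GQ, (∀ y ∈ L, σ y = y) → galKum Q m σ x = x := by
  obtain ⟨f, rfl⟩ := Kum.mk_surjective x
  obtain ⟨L, hL, h⟩ := Q.exists_finite_level ((f : Q.Fˣ) : Q.F)
  refine ⟨L, hL, fun σ hσ => ?_⟩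
  rw [galKum_mk]
  exact congrArg Kum.mk (Subtype.ext (Units.ext (h σ hσ)))

end Kummer

/-! ### CRUX (statement) -/

/-- **CRUX** for the field `E` (quotient form): two `A`-integral elements of `E` with the same nonzero reduction,
whose quotient has divisor divisible by `m`, differ by an `m`-th power. -/
def Crux1 (Q : QField) (p m : ℕ) : Prop :=
  ∀ A : ValuationSubring Qb, A.LiesOverPrime p →
    ∀ (y₁ y₂ : LaurentSeries A)
      (h₁ : coeffMap A.subtype y₁ ∈ Q.E) (h₂ : coeffMap A.subtype y₂ ∈ Q.E),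
      coeffMap (IsLocalRing.residue A) y₁ = coeffMap (IsLocalRing.residue A) y₂ →
      coeffMap (IsLocalRing.residue A) y₂ ≠ 0 →
      (∀ P : Place Qb Q.F, (m : ℤ) ∣ P.ord ((⟨_, h₁⟩ : Q.F) / ⟨_, h₂⟩)) →
      ∃ s : Q.F, s ^ m = (⟨_, h₁⟩ : Q.F) / ⟨_, h₂⟩

end

end Fermat.Agent.S48.B1
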