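import Fermat.Agent.S48.B1.Comm
import Fermat.Agent.S48.D1.Defs

/-!
# S48 / B1 : the Kummer module of a `QField` with `HeckeData` as an `ES1Module` (interface of part D1)

Inputs still to be supplied for `Q = F1(M)`:
* X1  : the `QField`;
* An1 : the `HeckeData`, `PreservesDm`, finiteness of the Kummer module;
* C1  : CRUX at all `p ∤ M`;
* An1 + Coh1 : the support property.
-/

set_option autoImplicit false

open AlgebraicCurve ModularCurve Fermat.Agent.ES

namespace Fermat.Agent.S48.B1

noncomputable section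

variable {Q : QField} {M : ℕ} (H : HeckeData Q M) {l : ℕ}

theorem gpUnit_eq (p : D.GoodPrime M) : D1.gpUnit p = gpUnit p := rfl

/-- `T_p` on the Kummer module, as a `ℤ`-linear map. -/
def heckeT (hD : H.PreservesDm l) (p : D.GoodPrime M) : Module.End ℤ (Kum Qb Q.F l) :=
  (heckeKum H hD p).toIntLinearMap

theorem heckeT_apply (hD : H.PreservesDm l) (p : D.GoodPrime M) (x : Kum Qb Q.F l) :
    heckeT H hD p x = heckeKum H hD p x := rfl

/-- The support property, to be supplied by An1 + Coh1. -/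
def SuppProp (hD : H.PreservesDm l) (W : Type) [AddCommGroup W] [Module ℂ W]
    (TW : D.GoodPrime M → Module.End ℂ W) (DW : (ZMod M)ˣ → Module.End ℂ W) : Prop :=
  ∀ P : FreeAlgebra ℤ (D.GoodPrime M ⊕ (ZMod M)ˣ),
    FreeAlgebra.lift ℤ (Sum.elim (heckeT H hD) (fun d => diaRepZ H l d)) P = 0 →
    ∃ R : Module.End ℂ W, IsIntegral ℤ R ∧
      FreeAlgebra.lift ℤ (Sum.elim TW DW) P = (l : ℤ) • R

/-- The Kummer module is an Eichler-Shimura module of level `Γ₁(M)`, given CRUX (C1), finiteness and support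
(An1, Coh1). -/
def es1Module (hD : H.PreservesDm l) (hl : l ≠ 0)
    (hcrux : ∀ p : ℕ, p.Prime → ¬ p ∣ M → Crux1 Q p l)
    (hfin : Finite (Kum Qb Q.F l)) (W : Type) [AddCommGroup W] [Module ℂ W]
    (TW : D.GoodPrime M → Module.End ℂ W) (DW : (ZMod M)ˣ → Module.End ℂ W)
    (hsupp : SuppProp H hD W TW DW) : D1.ES1Module M l W TW DW where
  V := Kum Qb Q.F l
  ρ := galRepZ Q l
  T := heckeT H hD
  D := fun d => diaRepZ H l d
  T_comm p p' := LinearMap.ext fun x => heckeKum_comm H hD hl p p' (hcrux p.1 p.2.1 p.2.2) x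
  T_D_comm p d := LinearMap.ext fun x => (diaKum_heckeKum H hD d p x).symm
  D_comm d d' := LinearMap.ext fun x => diaKum_comm H d d' x
  T_ρ_comm p σ := LinearMap.ext fun x => (galKum_heckeKum H hD σ p x).symm
  D_ρ_comm d σ := LinearMap.ext fun x => diaKum_galKum H d σ x
  smooth := galKum_smooth
  unram p hp hpM A hA σ hσ x := galKum_of_mem_inertia hl (hcrux p hp hpM) A hA σ hσ x
  eichlerShimura p A hA σ hσ x :=
    eichlerShimura_Kum H hD hl p (hcrux p.1 p.2.1 p.2.2) A hA σ hσ x
  supp := hsupp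

end

end Fermat.Agent.S48.B1
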