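import Fermat.Agent.S48.B1.Kum
import Fermat.Agent.ES.B.Pivot
import Fermat.Agent.ES.B.Red

/-!
# S48 / B1 : Galois stable subfields of `ℚ̄((q))` generated by "bounded" series of finite level

`QField` = a subfield `E = ℚ̄(gens) ⊆ ℚ̄((q))`, where every generator has its coefficients in a finitely
generated `ℤ`-module (`ES.Pivot.FGCoeff`) and is fixed by an open subgroup of `G_ℚ` (`FinLevel`), and `E` is stable
under the coefficientwise action of `G_ℚ`.   Examples: `F_N = modularFunctionFieldBar N`, `F1(M)` (part X1).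

Output:
* `Q.gal_mem`, `Q.galF σ : Q.F ≃+* Q.F`, `Q.galS : GQ →* SemilinearAut Qb Q.F`;
* (P) `Q.exists_integral_fraction` : every `f ≠ 0` in `E` is `c * a / b`, `a b ∈ E ∩ A((q))` with nonzero reduction;
* (S) `Q.exists_finite_level`.
-/

set_option autoImplicit false

open AlgebraicCurve ModularCurve Fermat.Agent.ES

namespace Fermat.Agent.S48.B1

noncomputable section

/-- `x` is fixed by an open subgroup of `G_ℚ`. -/
def FinLevel (x : LaurentSeries Qb) : Prop :=
  ∃ L : IntermediateField ℚ Qb, FiniteDimensional ℚ L ∧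
    ∀ σ : GQ, (∀ y ∈ L, σ y = y) → coeffMap (σ : Qb →+* Qb) x = x

theorem FinLevel.algebraMap (c : Qb) : FinLevel (algebraMap Qb (LaurentSeries Qb) c) := by
  refine ⟨IntermediateField.adjoin ℚ {c}, IntermediateField.adjoin.finiteDimensional
    ((AlgebraicClosure.isAlgebraic ℚ).isAlgebraic c).isIntegral, fun σ hσ => ?_⟩
  rw [coeffMap_algebraMap]
  exact congrArg _ (hσ c (IntermediateField.mem_adjoin_simple_self ℚ c))

theorem FinLevel.binop {x y z : LaurentSeries Qb} (hx : FinLevel x) (hy : FinLevel y)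
    (h : ∀ σ : GQ, coeffMap (σ : Qb →+* Qb) x = x → coeffMap (σ : Qb →+* Qb) y = y →
      coeffMap (σ : Qb →+* Qb) z = z) : FinLevel z := by
  obtain ⟨L₁, h₁, hx⟩ := hx
  obtain ⟨L₂, h₂, hy⟩ := hy
  refine ⟨L₁ ⊔ L₂, IntermediateField.finiteDimensional_sup L₁ L₂, fun σ hσ => ?_⟩
  exact h σ (hx σ fun y hy => hσ y ((le_sup_left : L₁ ≤ L₁ ⊔ L₂) hy))
    (hy σ fun y hy => hσ y ((le_sup_right : L₂ ≤ L₁ ⊔ L₂) hy))

theorem FinLevel.add {x y : LaurentSeries Qb} (hx : FinLevel x) (hy : FinLevel y) :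
    FinLevel (x + y) :=
  hx.binop hy fun σ h₁ h₂ => by rw [map_add, h₁, h₂]

theorem FinLevel.mul {x y : LaurentSeries Qb} (hx : FinLevel x) (hy : FinLevel y) :
    FinLevel (x * y) :=
  hx.binop hy fun σ h₁ h₂ => by rw [map_mul, h₁, h₂]

theorem FinLevel.inv {x : LaurentSeries Qb} (hx : FinLevel x) : FinLevel x⁻¹ :=
  hx.binop hx fun σ h₁ _ => by rw [map_inv₀, h₁]

/-- A Galois stable subfield of `ℚ̄((q))` generated by bounded series of finite level. -/
structure QField where
  /-- the field -/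
  E : IntermediateField Qb (LaurentSeries Qb)
  /-- generators -/
  gens : Set (LaurentSeries Qb)
  E_eq : E = IntermediateField.adjoin Qb gens
  fg : ∀ x ∈ gens, Pivot.FGCoeff x
  level : ∀ x ∈ gens, FinLevel x
  gal_gens : ∀ σ : GQ, ∀ x ∈ gens, coeffMap (σ : Qb →+* Qb) x ∈ E

namespace QField

variable (Q : QField)

/-- the field, as a type. -/
abbrev F : Type := ↥Q.E

theorem gal_mem (σ : GQ) {x : LaurentSeries Qb} (hx : x ∈ Q.E) :
    coeffMap (σ : Qb →+* Qb) x ∈ Q.E := by
  have hx' : x ∈ IntermediateField.adjoin Qb Q.gens := Q.E_eq ▸ hx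
  clear hx
  induction hx' using IntermediateField.adjoin_induction with
  | mem x hx => exact Q.gal_gens σ x hx
  | algebraMap c =>
    rw [coeffMap_algebraMap]
    exact IntermediateField.algebraMap_mem _ _
  | add x y _ _ hx hy =>
    rw [map_add]
    exact add_mem hx hy
  | inv x _ hx =>
    rw [map_inv₀]
    exact inv_mem hx
  | mul x y _ _ hx hy =>
    rw [map_mul]
    exact mul_mem hx hy

theorem finLevel {x : LaurentSeries Qb} (hx : x ∈ Q.E) : FinLevel x := by
  have hx' : x ∈ IntermediateField.adjoin Qb Q.gens := Q.E_eq ▸ hx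
  clear hx
  induction hx' using IntermediateField.adjoin_induction with
  | mem x hx => exact Q.level x hx
  | algebraMap c => exact FinLevel.algebraMap c
  | add x y _ _ hx hy => exact hx.add hy
  | inv x _ hx => exact hx.inv
  | mul x y _ _ hx hy => exact hx.mul hy

/-- The coefficientwise action of `σ ∈ G_ℚ` on the field. -/
def galF (σ : GQ) : Q.F ≃+* Q.F where
  toFun x := ⟨coeffMap (σ : Qb →+* Qb) (x : LaurentSeries Qb), Q.gal_mem σ x.2⟩
  invFun x := ⟨coeffMap (σ.symm : Qb →+* Qb) (x : LaurentSeries Qb), Q.gal_mem σ.symm x.2⟩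
  left_inv x := Subtype.ext <| by
    show coeffMap (σ.symm : Qb →+* Qb) (coeffMap (σ : Qb →+* Qb) (x : LaurentSeries Qb))
      = (x : LaurentSeries Qb)
    rw [coeffMap_coeffMap,
      coeffMap_congr (g := RingHom.id Qb) (RingHom.ext fun a => σ.symm_apply_apply a)
        (x : LaurentSeries Qb),
      coeffMap_id]
  right_inv x := Subtype.ext <| by
    show coeffMap (σ : Qb →+* Qb) (coeffMap (σ.symm : Qb →+* Qb) (x : LaurentSeries Qb))
      = (x : LaurentSeries Qb)
    rw [coeffMap_coeffMap,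
      coeffMap_congr (g := RingHom.id Qb) (RingHom.ext fun a => σ.apply_symm_apply a)
        (x : LaurentSeries Qb),
      coeffMap_id]
  map_mul' x y := Subtype.ext (map_mul (coeffMap (σ : Qb →+* Qb)) _ _)
  map_add' x y := Subtype.ext (map_add (coeffMap (σ : Qb →+* Qb)) _ _)

@[simp]
theorem coe_galF (σ : GQ) (x : Q.F) :
    ((Q.galF σ x : Q.F) : LaurentSeries Qb) = coeffMap (σ : Qb →+* Qb) (x : LaurentSeries Qb) :=
  rfl

theorem galF_algebraMap (σ : GQ) (a : Qb) :
    Q.galF σ (algebraMap Qb Q.F a) = algebraMap Qb Q.F (σ a) :=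
  Subtype.ext (coeffMap_algebraMap (σ : Qb →+* Qb) a)

/-- The Galois action by semilinear automorphisms. -/
def galS : GQ →* SemilinearAut Qb Q.F where
  toFun σ := ⟨(Q.galF σ, σ.toRingEquiv), fun a => Q.galF_algebraMap σ a⟩
  map_one' := by
    refine Subtype.ext (Prod.ext (RingEquiv.ext fun x => Subtype.ext ?_) rfl)
    show coeffMap ((1 : GQ) : Qb →+* Qb) (x : LaurentSeries Qb) = (x : LaurentSeries Qb)
    rw [show ((1 : GQ) : Qb →+* Qb) = RingHom.id Qb from RingHom.ext fun _ => rfl,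
      coeffMap_id]
  map_mul' σ τ := by
    refine Subtype.ext (Prod.ext (RingEquiv.ext fun x => Subtype.ext ?_) rfl)
    show coeffMap ((σ * τ : GQ) : Qb →+* Qb) (x : LaurentSeries Qb)
      = coeffMap (σ : Qb →+* Qb) (coeffMap (τ : Qb →+* Qb) (x : LaurentSeries Qb))
    rw [coeffMap_coeffMap]
    exact coeffMap_congr (RingHom.ext fun _ => rfl) _

@[simp]
theorem toRingAut_galS (σ : GQ) : SemilinearAut.toRingAut (Q.galS σ) = Q.galF σ := rfl

/-- elements of the `ℚ̄`-algebra generated by the generators have bounded coefficients. -/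
theorem fgCoeff_of_mem_adjoin {x : LaurentSeries Qb} (hx : x ∈ Algebra.adjoin Qb Q.gens) :
    Pivot.FGCoeff x := by
  induction hx using Algebra.adjoin_induction with
  | mem x hx => exact Q.fg x hx
  | algebraMap c => exact Pivot.FGCoeff.algebraMap c
  | add x y _ _ hx hy => exact hx.add hy
  | mul x y _ _ hx hy => exact hx.mul hy

theorem adjoin_le : (Algebra.adjoin Qb Q.gens : Set (LaurentSeries Qb)) ⊆ Q.E := by
  intro x hx
  rw [Q.E_eq]
  exact IntermediateField.algebra_adjoin_le_adjoin Qb Q.gens hx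

/-- (P) **Gauss scaling.** -/
theorem exists_integral_fraction (A : ValuationSubring Qb) (f : Q.F) (hf : f ≠ 0) :
    ∃ (c : Qb) (a b : LaurentSeries A), c ≠ 0 ∧
      coeffMap A.subtype a ∈ Q.E ∧ coeffMap A.subtype b ∈ Q.E ∧
      coeffMap (IsLocalRing.residue A) a ≠ 0 ∧
      coeffMap (IsLocalRing.residue A) b ≠ 0 ∧
      (f : LaurentSeries Qb) * coeffMap A.subtype b
        = algebraMap Qb (LaurentSeries Qb) c * coeffMap A.subtype a := by
  have hf' : (f : LaurentSeries Qb) ∈ IntermediateField.adjoin Qb Q.gens := Q.E_eq ▸ f.2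
  obtain ⟨r, hr, s, hs, hfrs⟩ := IntermediateField.mem_adjoin_iff_div.mp hf'
  have hf0 : (f : LaurentSeries Qb) ≠ 0 := fun h => hf (Subtype.ext h)
  have hr0 : r ≠ 0 := by
    rintro rfl
    rw [zero_div] at hfrs
    exact hf0 hfrs
  have hs0 : s ≠ 0 := by
    rintro rfl
    rw [div_zero] at hfrs
    exact hf0 hfrs
  obtain ⟨c₁, a, hc₁, ha, ha'⟩ := Pivot.exists_scale A r (Q.fgCoeff_of_mem_adjoin hr) hr0
  obtain ⟨c₂, b, hc₂, hb, hb'⟩ := Pivot.exists_scale A s (Q.fgCoeff_of_mem_adjoin hs) hs0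
  refine ⟨c₂ / c₁, a, b, div_ne_zero hc₂ hc₁, ?_, ?_, ha', hb', ?_⟩
  · rw [ha]
    exact mul_mem (IntermediateField.algebraMap_mem _ _) (Q.adjoin_le hr)
  · rw [hb]
    exact mul_mem (IntermediateField.algebraMap_mem _ _) (Q.adjoin_le hs)
  · rw [ha, hb, hfrs, map_div₀]
    have hc₁' : algebraMap Qb (LaurentSeries Qb) c₁ ≠ 0 := by
      rw [Ne, map_eq_zero]
      exact hc₁
    field_simp

/-- (S) **finite level.** -/
theorem exists_finite_level (f : Q.F) :
    ∃ L : IntermediateField ℚ Qb, FiniteDimensional ℚ L ∧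
      ∀ σ : GQ, (∀ x ∈ L, σ x = x) → Q.galF σ f = f := by
  obtain ⟨L, hL, h⟩ := Q.finLevel f.2
  exact ⟨L, hL, fun σ hσ => Subtype.ext (h σ hσ)⟩

end QField

end

end Fermat.Agent.S48.B1
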