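import Fermat.Agent.S48.B1.Output
import Fermat.Agent.S54.Frobenius

/-!
# S48 / B1 : the Hecke operators on the Kummer module commute

NOT formal on `q`-expansions (the diamond operators are only defined on the field `E`).  We use the Eichler-Shimura
relation instead: `T_p = ρ(φ) + p ⟨p⟩ ρ(φ)⁻¹` for a Frobenius element `φ` at `p`, and `T_p'` commutes with `ρ` and `⟨p⟩`.
-/

set_option autoImplicit false

open AlgebraicCurve ModularCurve Fermat.Agent.ES

namespace Fermat.Agent.S48.B1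

noncomputable section

variable {Q : QField} {M m : ℕ}

/-- `T_p = ρ(φ) + p ⟨p⟩ ρ(φ)⁻¹`. -/
theorem heckeKum_eq (H : HeckeData Q M) (hD : H.PreservesDm m) (hm : m ≠ 0)
    (p : D.GoodPrime M) (hcrux : Crux1 Q p.1 m) (A : ValuationSubring Qb)
    (hA : A.LiesOverPrime p.1) (φ : GQ) (hφ : A.IsFrobeniusAt φ p.1) (y : Kum Qb Q.F m) :
    heckeKum H hD p y = galKum Q m φ y + p.1 • diaKum H m (gpUnit p) (galKum Q m φ⁻¹ y) := by
  have h := eichlerShimura_Kum H hD hm p hcrux A hA φ hφ (galKum Q m φ⁻¹ y)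
  have h1 : galKum Q m φ (galKum Q m φ⁻¹ y) = y := by
    rw [← galKum_mul, mul_inv_cancel, galKum_one]
  rw [h1] at h
  have h2 : galKum Q m φ y + p.1 • diaKum H m (gpUnit p) (galKum Q m φ⁻¹ y) - heckeKum H hD p y
      = 0 := by
    rw [← h]; abel
  exact (sub_eq_zero.mp h2).symm

theorem heckeKum_comm (H : HeckeData Q M) (hD : H.PreservesDm m) (hm : m ≠ 0)
    (p p' : D.GoodPrime M) (hcrux : Crux1 Q p.1 m) (x : Kum Qb Q.F m) :
    heckeKum H hD p (heckeKum H hD p' x) = heckeKum H hD p' (heckeKum H hD p x) := by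
  obtain ⟨A, hA, φ, hφ⟩ := Fermat.Agent.S54.exists_frob p.1 p.2.1
  rw [heckeKum_eq H hD hm p hcrux A hA φ hφ, heckeKum_eq H hD hm p hcrux A hA φ hφ x, map_add,
    map_nsmul, galKum_heckeKum, galKum_heckeKum, diaKum_heckeKum]

end

end Fermat.Agent.S48.B1
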