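import Fermat.Agent.S48.B1.Hecke

/-!
# S48 / B1 : output.  CRUX ⟹ inertia acts trivially and `φ² - T_p φ + p ⟨p⟩ = 0` on the Kummer module

Difference with `ES/B/Output`: the integral series `y₁, y₂` which occur in the Eichler-Shimura congruence are NOT
in the field `E` (only their quotient is, up to a constant), because `V_p(b') * U_p(b)` is `T_p` of something only if
`b' = ⟨p⟩ b`.  `Kum.mk_eq_zero_of_crux` reduces to CRUX for pairs in `E` by Gauss' lemma.
-/

set_option autoImplicit false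

open AlgebraicCurve ModularCurve Fermat.Agent.ES

namespace Fermat.Agent.S48.B1

noncomputable section

/-- **Gauss' lemma**: if `e * Y = Z` with `Y, Z ∈ A((q))` and `Y` has nonzero reduction then `e ∈ A`. -/
theorem exists_scalar_of_scale (A : ValuationSubring Qb) (e : Qb) (Y Z : LaurentSeries A)
    (hY : coeffMap (resA A) Y ≠ 0)
    (h : algebraMap Qb (LaurentSeries Qb) e * coeffMap A.subtype Y = coeffMap A.subtype Z) :
    ∃ ε : A, (ε : Qb) = e ∧ HahnSeries.single 0 ε * Y = Z := by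
  have hco : ∀ n, e * (Y.coeff n : Qb) = (Z.coeff n : Qb) := by
    intro n
    have := congrArg (fun s => s.coeff n) h
    simpa [S24.Gen.coeff_algebraMap_mul] using this
  by_cases he : e ∈ A
  · refine ⟨⟨e, he⟩, rfl, ?_⟩
    ext n
    rw [HahnSeries.coeff_single_zero_mul]
    exact hco n
  · exfalso
    have he0 : e ≠ 0 := by
      rintro rfl
      exact he A.zero_mem
    have hinv : e⁻¹ ∈ A := (A.mem_or_inv_mem e).resolve_left he
    have hδ : resA A ⟨e⁻¹, hinv⟩ = 0 := by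
      rw [IsLocalRing.residue_eq_zero_iff, IsLocalRing.mem_maximalIdeal, mem_nonunits_iff]
      intro hu
      obtain ⟨w, hw⟩ := isUnit_iff_exists_inv.mp hu
      have hw' : e⁻¹ * (w : Qb) = 1 := congrArg Subtype.val hw
      have : (w : Qb) = e := by
        field_simp at hw'
        exact hw'
      exact he (this ▸ w.2)
    have hYZ : Y = HahnSeries.single 0 (⟨e⁻¹, hinv⟩ : A) * Z := by
      ext n
      rw [HahnSeries.coeff_single_zero_mul]
      show (Y.coeff n : Qb) = e⁻¹ * (Z.coeff n : Qb)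
      rw [← hco n, inv_mul_cancel_left₀ he0]
    apply hY
    rw [hYZ, map_mul, coeffMap_single, hδ, HahnSeries.single_eq_zero, zero_mul]

theorem coeffMap_subtype_single (A : ValuationSubring Qb) (ε : A) :
    coeffMap A.subtype (HahnSeries.single 0 ε) = algebraMap Qb (LaurentSeries Qb) (ε : Qb) := by
  rw [coeffMap_single, algebraMap_laurentSeries_eq_single]
  rfl

theorem sub_ne_zero_of_res_ne_zero {A : ValuationSubring Qb} {y : LaurentSeries A}
    (hy : coeffMap (resA A) y ≠ 0) : coeffMap A.subtype y ≠ 0 := by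
  intro h
  apply hy
  have : y = 0 := by
    ext n
    have := congrArg (fun z => z.coeff n) h
    simpa using this
  rw [this, map_zero]

variable {Q : QField} {m p : ℕ}

/-- The way CRUX is used: `u ∈ Dm`, `u = c * y₁ / y₂` with `c` a nonzero constant and `y₁, y₂ ∈ A((q))` ARBITRARY integral
series with the same nonzero reduction. -/
theorem Kum.mk_eq_zero_of_crux (hm : m ≠ 0) (hcrux : Crux1 Q p m) (A : ValuationSubring Qb)
    (hA : A.LiesOverPrime p) (u : Dm Qb Q.F m) (y₁ y₂ : LaurentSeries A) (c : Qb) (hc : c ≠ 0)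
    (hred : coeffMap (resA A) y₁ = coeffMap (resA A) y₂) (hne : coeffMap (resA A) y₂ ≠ 0)
    (hu : (((u : Q.Fˣ) : Q.F) : LaurentSeries Qb) * coeffMap A.subtype y₂
      = algebraMap Qb (LaurentSeries Qb) c * coeffMap A.subtype y₁) : Kum.mk u = 0 := by
  obtain ⟨c₀, a, b, hc₀, ha, hb, ha0, hb0, hab⟩ :=
    Q.exists_integral_fraction A ((u : Q.Fˣ) : Q.F) (u : Q.Fˣ).ne_zero
  have hc' : algebraMap Qb (LaurentSeries Qb) c ≠ 0 := by
    rw [Ne, map_eq_zero]; exact hc
  -- `(c₀ / c) * (a * y₂) = y₁ * b`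
  have h1 : algebraMap Qb (LaurentSeries Qb) (c₀ / c) * coeffMap A.subtype (a * y₂)
      = coeffMap A.subtype (y₁ * b) := by
    rw [map_mul, map_mul, map_div₀, div_mul_eq_mul_div, div_eq_iff hc', ← mul_assoc, ← hab]
    calc (((u : Q.Fˣ) : Q.F) : LaurentSeries Qb) * coeffMap A.subtype b * coeffMap A.subtype y₂
        = ((((u : Q.Fˣ) : Q.F) : LaurentSeries Qb) * coeffMap A.subtype y₂)
            * coeffMap A.subtype b := by ring
      _ = _ := by rw [hu]; ring
  obtain ⟨ε, hε, hεY⟩ := exists_scalar_of_scale A (c₀ / c) (a * y₂) (y₁ * b)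
    (by rw [map_mul]; exact mul_ne_zero ha0 hne) h1
  -- the new numerator
  set a₁ : LaurentSeries A := HahnSeries.single 0 ε * a with ha₁
  have hsub : coeffMap A.subtype a₁
      = algebraMap Qb (LaurentSeries Qb) (c₀ / c) * coeffMap A.subtype a := by
    rw [ha₁, map_mul, coeffMap_subtype_single, hε]
  have ha₁E : coeffMap A.subtype a₁ ∈ Q.E := by
    rw [hsub]
    exact mul_mem (IntermediateField.algebraMap_mem _ _) ha
  have hred₁ : coeffMap (resA A) a₁ = coeffMap (resA A) b := by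
    have h2 : coeffMap (resA A) a₁ * coeffMap (resA A) y₂
        = coeffMap (resA A) b * coeffMap (resA A) y₂ := by
      calc coeffMap (resA A) a₁ * coeffMap (resA A) y₂
          = coeffMap (resA A) (HahnSeries.single 0 ε * (a * y₂)) := by
            rw [ha₁, ← map_mul, mul_assoc]
        _ = coeffMap (resA A) (y₁ * b) := by rw [hεY]
        _ = coeffMap (resA A) b * coeffMap (resA A) y₂ := by rw [map_mul, hred, mul_comm]
    exact mul_right_cancel₀ hne h2
  have hb0' : (⟨_, hb⟩ : Q.F) ≠ 0 := by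
    intro h
    exact sub_ne_zero_of_res_ne_zero hb0 (congrArg Subtype.val h)
  have hcF : algebraMap Qb Q.F c ≠ 0 := by
    rw [Ne, map_eq_zero]; exact hc
  have hq : (⟨_, ha₁E⟩ : Q.F) / ⟨_, hb⟩ = ((u : Q.Fˣ) : Q.F) * (algebraMap Qb Q.F c)⁻¹ := by
    rw [div_eq_iff hb0', mul_right_comm, eq_mul_inv_iff_mul_eq₀ hcF]
    apply Subtype.ext
    show coeffMap A.subtype a₁ * algebraMap Qb (LaurentSeries Qb) c
      = (((u : Q.Fˣ) : Q.F) : LaurentSeries Qb) * coeffMap A.subtype b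
    rw [hsub, hab, map_div₀]
    field_simp
  obtain ⟨s, hs⟩ := hcrux A hA a₁ b ha₁E hb hred₁ hb0 (by
    intro P
    rw [hq, P.ord_mul (u : Q.Fˣ).ne_zero (inv_ne_zero hcF), P.ord_inv,
      S24.FF.ord_algebraMap, neg_zero, add_zero]
    exact u.2 P)
  rw [hq] at hs
  obtain ⟨d, hd⟩ := IsAlgClosed.exists_pow_nat_eq c (Nat.pos_of_ne_zero hm)
  rw [Kum.mk_eq_zero_iff]
  have hsd : (s * algebraMap Qb Q.F d) ^ m = ((u : Q.Fˣ) : Q.F) := by
    rw [mul_pow, hs, ← map_pow, hd, inv_mul_cancel_right₀ hcF]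
  have hsd0 : s * algebraMap Qb Q.F d ≠ 0 := by
    intro h
    rw [h, zero_pow hm] at hsd
    exact (u : Q.Fˣ).ne_zero hsd.symm
  exact ⟨Units.mk0 _ hsd0, Units.ext (by simpa using hsd)⟩

/-- every class is represented by `f = c * a / b` with `a, b` integral of nonzero reduction. -/
theorem Kum.exists_rep (A : ValuationSubring Qb) (f : Q.F) (hf : f ≠ 0) :
    ∃ (c : Qb) (a b : LaurentSeries A), c ≠ 0 ∧
      coeffMap (resA A) a ≠ 0 ∧ coeffMap (resA A) b ≠ 0 ∧
      (f : LaurentSeries Qb) * coeffMap A.subtype b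
        = algebraMap Qb (LaurentSeries Qb) c * coeffMap A.subtype a := by
  obtain ⟨c, a, b, hc, -, -, ha0, hb0, hab⟩ := Q.exists_integral_fraction A f hf
  exact ⟨c, a, b, hc, ha0, hb0, hab⟩

/-- **Unramifiedness**: CRUX implies that inertia at `A ∣ p` acts trivially on the Kummer module. -/
theorem galKum_of_mem_inertia (hm : m ≠ 0) (hcrux : Crux1 Q p m)
    (A : ValuationSubring Qb) (hA : A.LiesOverPrime p) (σ : GQ)
    (hσ : σ ∈ A.inertiaSubgroupIn ℚ) (x : Kum Qb Q.F m) : galKum Q m σ x = x := by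
  obtain ⟨f, rfl⟩ := Kum.mk_surjective x
  obtain ⟨c, a, b, hc, ha0, hb0, hab⟩ := Kum.exists_rep A ((f : Q.Fˣ) : Q.F) (f : Q.Fˣ).ne_zero
  obtain ⟨g, rfl, hg⟩ := res_galA_of_inertia hσ
  have hres : ∀ y : LaurentSeries A, coeffMap (resA A) (coeffMap (galA g) y)
      = coeffMap (resA A) y := fun y => by rw [coeffMap_coeffMap, hg]
  rw [← sub_eq_zero, galKum_mk, sub_eq_add_neg, ← Kum.mk_inv, ← Kum.mk_mul]
  have hgc : (g : GQ) c ≠ 0 := by
    rw [Ne, map_eq_zero]; exact hc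
  refine Kum.mk_eq_zero_of_crux hm hcrux A hA _ (coeffMap (galA g) a * b) (a * coeffMap (galA g) b)
    ((g : GQ) c / c) (div_ne_zero hgc hc) ?_ ?_ ?_
  · rw [map_mul, map_mul, hres, hres]
  · rw [map_mul, hres]
    exact mul_ne_zero ha0 hb0
  · have hf0 : (((f : Q.Fˣ) : Q.F) : LaurentSeries Qb) ≠ 0 := by
      intro h
      exact (f : Q.Fˣ).ne_zero (Subtype.ext h)
    have hc' : algebraMap Qb (LaurentSeries Qb) c ≠ 0 := by
      rw [Ne, map_eq_zero]; exact hc
    have hab' := congrArg (coeffMap (((g : GQ) : Qb →+* Qb))) hab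
    rw [map_mul, map_mul, coeffMap_algebraMap] at hab'
    rw [map_mul, map_mul, coeffMap_subtype_galA, coeffMap_subtype_galA, map_div₀]
    rw [Subgroup.coe_mul, Units.val_mul, IntermediateField.coe_mul, Subgroup.coe_inv,
      Units.val_inv_eq_inv_val, IntermediateField.coe_inv]
    show (coeffMap (((g : GQ) : Qb →+* Qb)) (((f : Q.Fˣ) : Q.F) : LaurentSeries Qb)
      * (((f : Q.Fˣ) : Q.F) : LaurentSeries Qb)⁻¹) * _ = _
    set X := coeffMap (((g : GQ) : Qb →+* Qb)) (((f : Q.Fˣ) : Q.F) : LaurentSeries Qb)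
    set Bg := coeffMap (((g : GQ) : Qb →+* Qb)) (coeffMap A.subtype b)
    set Ag := coeffMap (((g : GQ) : Qb →+* Qb)) (coeffMap A.subtype a)
    have hgc' : ((g : GQ) : Qb →+* Qb) c = (g : GQ) c := rfl
    rw [hgc'] at hab'
    have ha_eq : coeffMap A.subtype a
        = (algebraMap Qb (LaurentSeries Qb) c)⁻¹
          * ((((f : Q.Fˣ) : Q.F) : LaurentSeries Qb) * coeffMap A.subtype b) := by
      rw [hab, inv_mul_cancel_left₀ hc']
    rw [ha_eq]
    calc X * (((f : Q.Fˣ) : Q.F) : LaurentSeries Qb)⁻¹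
          * ((algebraMap Qb (LaurentSeries Qb) c)⁻¹
            * ((((f : Q.Fˣ) : Q.F) : LaurentSeries Qb) * coeffMap A.subtype b) * Bg)
        = (X * Bg) * ((algebraMap Qb (LaurentSeries Qb) c)⁻¹ * coeffMap A.subtype b)
            * ((((f : Q.Fˣ) : Q.F) : LaurentSeries Qb)⁻¹
              * (((f : Q.Fˣ) : Q.F) : LaurentSeries Qb)) := by ring
      _ = _ := by
        rw [inv_mul_cancel₀ hf0, hab']
        field_simp

/-! ### the Eichler-Shimura relation -/

theorem Vq_algebraMap (p : ℕ) [NeZero p] (e : Qb) :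
    Vq Qb p (algebraMap Qb (LaurentSeries Qb) e) = algebraMap Qb (LaurentSeries Qb) e := by
  rw [algebraMap_laurentSeries_eq_single, qExpand_single, mul_zero]

theorem twist_algebraMap (z : Qbˣ) (e : Qb) :
    twist z (algebraMap Qb (LaurentSeries Qb) e) = algebraMap Qb (LaurentSeries Qb) e := by
  ext n
  rw [twist_coeff, algebraMap_laurentSeries_eq_single, HahnSeries.coeff_single]
  split_ifs with h
  · subst h; simp
  · simp

/-- `U_p` of a constant. -/
theorem normSer_algebraMap (p : ℕ) [NeZero p] (e : Qb) :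
    normSer p (algebraMap Qb (LaurentSeries Qb) e) = algebraMap Qb (LaurentSeries Qb) (e ^ p) := by
  obtain ⟨ζ, hζ⟩ := exists_primitiveRoot_Qb p
  apply Vq_injective (R := Qb) p
  rw [Vq_normSer p hζ, Vq_algebraMap, twistProd]
  simp only [twist_algebraMap]
  rw [Finset.prod_const, Finset.card_univ, ← Nat.card_eq_fintype_card, hζ.card_rootsOfUnity,
    map_pow]

theorem normSer_inv_algebraMap (p : ℕ) [NeZero p] (e : Qb) :
    normSer p (algebraMap Qb (LaurentSeries Qb) e)⁻¹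
      = ((algebraMap Qb (LaurentSeries Qb) e) ^ p)⁻¹ := by
  rw [← map_inv₀, normSer_algebraMap, inv_pow, map_inv₀, map_pow]

theorem normSer_ne_zero (p : ℕ) [NeZero p] {x : LaurentSeries Qb} (hx : x ≠ 0) :
    normSer p x ≠ 0 := by
  obtain ⟨ζ, hζ⟩ := exists_primitiveRoot_Qb p
  intro h
  have h1 := Vq_normSer p hζ x
  rw [h, map_zero, twistProd] at h1
  obtain ⟨z, -, hz⟩ := Finset.prod_eq_zero_iff.mp h1.symm
  exact hx ((map_eq_zero _).mp hz)

/-- the field identity behind the Eichler-Shimura relation. -/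
theorem es_identity {L : Type*} [Field L] (h2 VX Uh Xs b2 bs Vb Ub k1 k2 k3 k4 : L) (p : ℕ)
    (hVX : VX ≠ 0) (hUh : Uh ≠ 0) (h1 : k1 ≠ 0) (h2' : k2 ≠ 0) (h3 : k3 ≠ 0) (h4 : k4 ≠ 0) :
    h2 * (VX * Uh)⁻¹ * Xs ^ p * (b2 * bs ^ p * (k3⁻¹ * (VX * Vb)) * (k4⁻¹ * (Uh * Ub)))
      = (k1 * k2 ^ p / (k3 * k4)) * ((k1⁻¹ * (h2 * b2)) * (k2⁻¹ * (Xs * bs)) ^ p * Vb * Ub) := by
  simp only [mul_pow, inv_pow]
  field_simp

variable {M : ℕ}

/-- **Eichler-Shimura relation**: CRUX implies `φ² - T_p φ + p ⟨p⟩ = 0` on the Kummer module for every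
Frobenius element `φ` at `A ∣ p`. -/
theorem eichlerShimura_Kum (H : HeckeData Q M) (hD : H.PreservesDm m) (hm : m ≠ 0)
    (p : D.GoodPrime M) (hcrux : Crux1 Q p.1 m) (A : ValuationSubring Qb)
    (hA : A.LiesOverPrime p.1) (φ : GQ) (hφ : A.IsFrobeniusAt φ p.1) (x : Kum Qb Q.F m) :
    galKum Q m φ (galKum Q m φ x) - heckeKum H hD p (galKum Q m φ x)
      + p.1 • diaKum H m (gpUnit p) x = 0 := by
  obtain ⟨f, rfl⟩ := Kum.mk_surjective x
  have hp := p.2.1
  obtain ⟨c, a, b, hc, ha0, hb0, hab⟩ := Kum.exists_rep A ((f : Q.Fˣ) : Q.F) (f : Q.Fˣ).ne_zero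
  have hX0 : H.dia (gpUnit p) ((f : Q.Fˣ) : Q.F) ≠ 0 := by
    rw [Ne, map_eq_zero]; exact (f : Q.Fˣ).ne_zero
  obtain ⟨c', a', b', hc', ha0', hb0', hab'⟩ := Kum.exists_rep A _ hX0
  obtain ⟨g, rfl, hg⟩ := res_galA_of_frobenius hp hA hφ
  obtain ⟨ζ, hζ⟩ := exists_primitiveRoot_Qb p.1
  have hres : ∀ y : LaurentSeries A, coeffMap (resA A) (coeffMap (galA g) y)
      = coeffMap (frobA hp hA) (coeffMap (resA A) y) := fun y => by
    rw [coeffMap_coeffMap, hg, ← coeffMap_coeffMap]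
  have hfrob : ∀ {y : LaurentSeries (kA A)}, y ≠ 0 → coeffMap (frobA hp hA) y ≠ 0 := by
    intro y hy h
    apply hy
    ext n
    have := congrArg (fun z => z.coeff n) h
    exact (frobA hp hA).injective (by simpa using this)
  have hV : ∀ {y : LaurentSeries (kA A)}, y ≠ 0 → Vq (kA A) p.1 y ≠ 0 := fun hy =>
    (map_ne_zero_iff _ (Vq_injective p.1)).mpr hy
  rw [galKum_mk, galKum_mk, heckeKum_mk, diaKum_mk, sub_eq_add_neg, ← Kum.mk_inv, ← Kum.mk_mul,
    ← Kum.mk_pow, ← Kum.mk_mul]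
  have hgc : ∀ {e : Qb}, e ≠ 0 → (g : GQ) e ≠ 0 := fun he => by
    rw [Ne, map_eq_zero]; exact he
  have hC : ∀ {e : Qb}, e ≠ 0 → algebraMap Qb (LaurentSeries Qb) e ≠ 0 := fun he => by
    rw [Ne, map_eq_zero]; exact he
  refine Kum.mk_eq_zero_of_crux hm hcrux A hA _
    (coeffMap (galA g) (coeffMap (galA g) a) * a' ^ p.1 * Vq A p.1 (coeffMap (galA g) b')
      * normSer p.1 (coeffMap (galA g) b))
    (coeffMap (galA g) (coeffMap (galA g) b) * b' ^ p.1 * Vq A p.1 (coeffMap (galA g) a')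
      * normSer p.1 (coeffMap (galA g) a))
    ((g : GQ) ((g : GQ) c) * c' ^ p.1 / ((g : GQ) c' * ((g : GQ) c) ^ p.1))
    (div_ne_zero (mul_ne_zero (hgc (hgc hc)) (pow_ne_zero _ hc'))
      (mul_ne_zero (hgc hc') (pow_ne_zero _ (hgc hc)))) ?_ ?_ ?_
  · simp only [map_mul, map_pow, coeffMap_res_normSer hp hA, coeffMap_Vq, hres,
      pow_eq_Vq_frobA hp hA]
    ring
  · simp only [map_mul, map_pow, coeffMap_res_normSer hp hA, coeffMap_Vq, hres]
    exact mul_ne_zero (mul_ne_zero (mul_ne_zero (hfrob (hfrob hb0)) (pow_ne_zero _ hb0'))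
      (hV (hfrob ha0'))) (hfrob (hfrob ha0))
  · set σ : Qb →+* Qb := ((g : GQ) : Qb →+* Qb) with hσ
    set hs : LaurentSeries Qb := (((f : Q.Fˣ) : Q.F) : LaurentSeries Qb) with hhs
    set Xs : LaurentSeries Qb := ((H.dia (gpUnit p) ((f : Q.Fˣ) : Q.F) : Q.F) : LaurentSeries Qb)
      with hXs
    have hs0 : hs ≠ 0 := fun h => (f : Q.Fˣ).ne_zero (Subtype.ext h)
    have hXs0 : Xs ≠ 0 := fun h => hX0 (Subtype.ext h)
    have ha_eq : coeffMap A.subtype a
        = (algebraMap Qb (LaurentSeries Qb) c)⁻¹ * (hs * coeffMap A.subtype b) := by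
      rw [hab, inv_mul_cancel_left₀ (hC hc)]
    have ha_eq' : coeffMap A.subtype a'
        = (algebraMap Qb (LaurentSeries Qb) c')⁻¹ * (Xs * coeffMap A.subtype b') := by
      rw [hab', inv_mul_cancel_left₀ (hC hc')]
    have h1 : (((H.heckeU p (semiU (Q.galS (g : GQ)) (f : Q.Fˣ)) : Q.Fˣ) : Q.F) : LaurentSeries Qb)
        = Vq Qb p.1 (coeffMap σ Xs) * normSer p.1 (coeffMap σ hs) := by
      rw [HeckeData.coe_heckeU, HeckeData.coe_heckeF, coe_semiU, QField.toRingAut_galS,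
        H.dia_gal]
      rfl
    rw [Subgroup.coe_mul, Subgroup.coe_mul, Units.val_mul, Units.val_mul,
      IntermediateField.coe_mul, IntermediateField.coe_mul, Subgroup.coe_inv,
      Units.val_inv_eq_inv_val, IntermediateField.coe_inv, Subgroup.coe_pow,
      Units.val_pow_eq_pow_val, IntermediateField.coe_pow]
    rw [h1]
    show coeffMap σ (coeffMap σ hs) * (Vq Qb p.1 (coeffMap σ Xs) * normSer p.1 (coeffMap σ hs))⁻¹
          * Xs ^ p.1 * _ = _
    simp only [map_mul, map_pow, coeffMap_subtype_galA, coeffMap_subtype_normSer, coeffMap_Vq]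
    rw [ha_eq, ha_eq']
    simp only [map_mul, map_inv₀, normSer_mul p.1 hζ, coeffMap_algebraMap, Vq_algebraMap,
      normSer_inv_algebraMap, map_div₀, map_pow]
    exact es_identity _ _ _ _ _ _ _ _ _ _ _ _ p.1
      ((map_ne_zero _).mpr ((map_ne_zero _).mpr hXs0))
      (normSer_ne_zero p.1 ((map_ne_zero _).mpr hs0))
      (hC (hgc (hgc hc))) (hC hc') (hC (hgc hc')) (pow_ne_zero _ (hC (hgc hc)))

end

end Fermat.Agent.S48.B1
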